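import Fermat.Agent.S48.H.Basic
import Fermat.Prelude.Def_ModularForm_HeckeOperator

/-!
# S48 / W0 : depletion

For `f = ∑ a_n q^n ∈ S_k(Γ₁(N))` the series `∑_{(n,N)=1} a_n q^n` is in `S_k(Γ₁(N³))`:
it is `∑_{b mod N} c_b f(τ + b/N)` with `c_b = (1/N) ∑_{u ∈ (ℤ/N)ˣ} e(-ub/N)`.
-/

set_option autoImplicit false

namespace Fermat.Agent.S48.W0

open UpperHalfPlane ModularForm Matrix.SpecialLinearGroup CongruenceSubgroup
open Fermat.Agent.S48.H
open Fermat.Agent.S23 (Nice qe)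
open scoped MatrixGroups Manifold

/-- The matrix `(1, b/N; 0, 1)`. -/
noncomputable def shiftMat (N : ℕ) (b : ℕ) : GL (Fin 2) ℝ :=
  upperTriangularGL 1 ((b : ℝ) / N) 1 (by norm_num)

theorem det_shiftMat_pos (N b : ℕ) : 0 < (shiftMat N b).det.val := by
  rw [Matrix.GeneralLinearGroup.val_det_apply]
  unfold shiftMat
  rw [val_upperTriangularGL, Matrix.det_fin_two_of]
  norm_num

theorem Dep_val_mapGL (g : SL(2, ℤ)) :
    ((Matrix.SpecialLinearGroup.mapGL ℝ g : GL (Fin 2) ℝ) : Matrix (Fin 2) (Fin 2) ℝ) =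
      !![((g 0 0 : ℤ) : ℝ), ((g 0 1 : ℤ) : ℝ); ((g 1 0 : ℤ) : ℝ), ((g 1 1 : ℤ) : ℝ)] := by
  ext i j
  fin_cases i <;> fin_cases j <;> simp [Matrix.SpecialLinearGroup.mapGL]

/-- `α Γ₁(N³) α⁻¹ ≤ Γ₁(N)` for `α = (1, b/N; 0, 1)`. -/
theorem shiftMat_conj (N : ℕ) [NeZero N] (b : ℕ) :
    ∀ γ ∈ G1 (N ^ 3), shiftMat N b * γ * (shiftMat N b)⁻¹ ∈ G1 N := by
  rintro _ ⟨g, hg, rfl⟩
  have hg' : g ∈ Gamma1 (N ^ 3) := hg
  rw [Gamma1_mem] at hg'
  obtain ⟨hA, hD, hC⟩ := hg'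
  have hN : (N : ℝ) ≠ 0 := Nat.cast_ne_zero.mpr (NeZero.ne N)
  obtain ⟨a, ha⟩ : ((N ^ 3 : ℕ) : ℤ) ∣ g 0 0 - 1 := by
    rw [← ZMod.intCast_zmod_eq_zero_iff_dvd]
    push_cast
    rw [hA, sub_self]
  obtain ⟨d, hd⟩ : ((N ^ 3 : ℕ) : ℤ) ∣ g 1 1 - 1 := by
    rw [← ZMod.intCast_zmod_eq_zero_iff_dvd]
    push_cast
    rw [hD, sub_self]
  obtain ⟨c, hc⟩ : ((N ^ 3 : ℕ) : ℤ) ∣ g 1 0 := (ZMod.intCast_zmod_eq_zero_iff_dvd _ _).mp hC
  push_cast at ha hd hc
  have hdet : g 0 0 * g 1 1 - g 0 1 * g 1 0 = 1 := by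
    have := g.det_coe
    rwa [Matrix.det_fin_two] at this
  let g' : SL(2, ℤ) := ⟨!![g 0 0 + b * N ^ 2 * c, g 0 1 + b * N ^ 2 * (d - a) - b ^ 2 * N * c;
      g 1 0, g 1 1 - b * N ^ 2 * c], by
    rw [Matrix.det_fin_two_of]
    linear_combination hdet + ((b : ℤ) * N ^ 2 * c) * (hd - ha) +
      (-(b : ℤ) * N ^ 2 * (d - a) + b ^ 2 * N * c) * hc⟩
  refine ⟨g', ?_, ?_⟩
  · show g' ∈ Gamma1 N
    rw [Gamma1_mem]
    have e00 : g' 0 0 = 1 + (N : ℤ) * (N ^ 2 * a + b * N * c) := by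
      show g 0 0 + b * N ^ 2 * c = _
      linear_combination ha
    have e11 : g' 1 1 = 1 + (N : ℤ) * (N ^ 2 * d - b * N * c) := by
      show g 1 1 - b * N ^ 2 * c = _
      linear_combination hd
    have e10 : g' 1 0 = (N : ℤ) * (N ^ 2 * c) := by
      show g 1 0 = _
      linear_combination hc
    rw [e00, e11, e10]
    refine ⟨by simp, by simp, by simp⟩
  · rw [eq_mul_inv_iff_mul_eq]
    apply Units.ext
    rw [Units.val_mul, Units.val_mul, Dep_val_mapGL, Dep_val_mapGL]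
    unfold shiftMat
    rw [val_upperTriangularGL, Matrix.mul_fin_two, Matrix.mul_fin_two]
    have ha' := congrArg (Int.cast : ℤ → ℝ) ha
    have hd' := congrArg (Int.cast : ℤ → ℝ) hd
    have hc' := congrArg (Int.cast : ℤ → ℝ) hc
    push_cast at ha' hd' hc'
    have e00 : ((g' 0 0 : ℤ) : ℝ) = g 0 0 + b * N ^ 2 * c := by
      show ((g 0 0 + b * N ^ 2 * c : ℤ) : ℝ) = _
      push_cast; ring
    have e01 : ((g' 0 1 : ℤ) : ℝ) = g 0 1 + b * N ^ 2 * (d - a) - b ^ 2 * N * c := by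
      show ((g 0 1 + b * N ^ 2 * (d - a) - b ^ 2 * N * c : ℤ) : ℝ) = _
      push_cast; ring
    have e10 : ((g' 1 0 : ℤ) : ℝ) = g 1 0 := rfl
    have e11 : ((g' 1 1 : ℤ) : ℝ) = g 1 1 - b * N ^ 2 * c := by
      show ((g 1 1 - b * N ^ 2 * c : ℤ) : ℝ) = _
      push_cast; ring
    rw [e00, e01, e10, e11]
    ext i j
    fin_cases i <;> fin_cases j
    · simp
      rw [hc']
      field_simp
    · simp
      have h1 : ((g 0 0 : ℤ) : ℝ) = 1 + N ^ 3 * a := by linarith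
      have h2 : ((g 1 1 : ℤ) : ℝ) = 1 + N ^ 3 * d := by linarith
      rw [h1, h2]
      field_simp
      ring
    · simp
    · simp
      rw [hc']
      field_simp
      ring


/-- `f(τ) ↦ f(τ + b/N)`. -/
noncomputable def shift (N : ℕ) [NeZero N] (k : ℤ) (b : ℕ) :
    CuspForm (Gamma1 N) k →ₗ[ℂ] CuspForm (Gamma1 (N ^ 3)) k :=
  slashTo k (shiftMat N b) (det_shiftMat_pos N b) (shiftMat_conj N b)

theorem Dep_coe_shiftMat_smul (N b : ℕ) (τ : ℍ) :
    ((shiftMat N b • τ : ℍ) : ℂ) = (τ : ℂ) + (b : ℂ) / N := by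
  rw [UpperHalfPlane.coe_smul_of_det_pos (det_shiftMat_pos N b)]
  simp [UpperHalfPlane.num, UpperHalfPlane.denom, shiftMat, val_upperTriangularGL]

theorem Dep_slash_shiftMat_apply (F : ℍ → ℂ) (k : ℤ) (N b : ℕ) (τ : ℍ) :
    (F ∣[k] shiftMat N b) τ = F (shiftMat N b • τ) := by
  have hdet : ((shiftMat N b).det : ℝ) = 1 := by
    rw [Matrix.GeneralLinearGroup.val_det_apply]
    unfold shiftMat
    rw [val_upperTriangularGL, Matrix.det_fin_two_of]
    norm_num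
  have hσ : UpperHalfPlane.σ (shiftMat N b) = .refl ℝ ℂ := by
    rw [UpperHalfPlane.σ, if_pos (by rw [hdet]; exact one_pos)]
  have hden : UpperHalfPlane.denom (shiftMat N b) τ = 1 := by
    simp [UpperHalfPlane.denom, shiftMat, val_upperTriangularGL]
  rw [ModularForm.slash_apply, hσ, hdet, hden]
  simp

theorem qCoeff_shift (N : ℕ) [NeZero N] (k : ℤ) (b : ℕ) (f : CuspForm (Gamma1 N) k) (n : ℕ) :
    ModularFormClass.qCoeff (shift N k b f) n
      = ZMod.stdAddChar ((n : ZMod N) * (b : ZMod N)) * ModularFormClass.qCoeff f n := by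
  have hN : (N : ℂ) ≠ 0 := Nat.cast_ne_zero.mpr (NeZero.ne N)
  refine (UpperHalfPlane.qExpansion_coeff_unique (shift N k b f)
    (c := fun m => ZMod.stdAddChar ((m : ZMod N) * (b : ZMod N)) * ModularFormClass.qCoeff f m)
    one_pos (nice (shift N k b f)).analytic (fun τ => ?_) n).symm
  have h1 : (shift N k b f) τ = f (shiftMat N b • τ) := by
    change (⇑f ∣[k] shiftMat N b) τ = _
    exact Dep_slash_shiftMat_apply _ k N b τ
  rw [h1]
  have h2 := UpperHalfPlane.hasSum_qExpansion one_pos (nice f).per (nice f).hol (nice f).bdd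
    (shiftMat N b • τ)
  convert h2 using 2 with m
  have e1 : Function.Periodic.qParam 1 ((shiftMat N b • τ : ℍ) : ℂ) =
      Function.Periodic.qParam 1 (τ : ℂ) * Complex.exp (2 * Real.pi * Complex.I * b / N) := by
    rw [Dep_coe_shiftMat_smul]
    unfold Function.Periodic.qParam
    rw [← Complex.exp_add]
    congr 1
    push_cast
    field_simp
  have e2 : (ZMod.stdAddChar ((m : ZMod N) * (b : ZMod N)) : ℂ) =
      Complex.exp (2 * Real.pi * Complex.I * b / N) ^ m := by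
    have : ((m : ZMod N) * (b : ZMod N)) = (((m * b : ℕ) : ℤ) : ZMod N) := by push_cast; rfl
    rw [this, ZMod.stdAddChar_coe, ← Complex.exp_nat_mul]
    congr 1
    push_cast
    ring
  rw [e1, e2, mul_pow, smul_eq_mul, smul_eq_mul]
  unfold ModularFormClass.qCoeff
  ring

/-- Fourier inversion for the indicator function of the units of `ℤ/N`. -/
theorem sum_coeff_stdAddChar (N : ℕ) [NeZero N] (x : ZMod N) :
    ∑ b : ZMod N, ((N : ℂ)⁻¹ * ∑ u : (ZMod N)ˣ, ZMod.stdAddChar (-((u : ZMod N) * b)))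
        * ZMod.stdAddChar (x * b) = if IsUnit x then 1 else 0 := by
  classical
  have hN : (N : ℂ) ≠ 0 := Nat.cast_ne_zero.mpr (NeZero.ne N)
  have h1 : ∀ b : ZMod N, ((N : ℂ)⁻¹ * ∑ u : (ZMod N)ˣ, ZMod.stdAddChar (-((u : ZMod N) * b)))
        * ZMod.stdAddChar (x * b)
      = (N : ℂ)⁻¹ * ∑ u : (ZMod N)ˣ, ZMod.stdAddChar (b * (x - (u : ZMod N))) := by
    intro b
    rw [mul_assoc, Finset.sum_mul]
    congr 1
    refine Finset.sum_congr rfl fun u _ => ?_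
    rw [← AddChar.map_add_eq_mul]
    congr 1
    ring
  simp_rw [h1]
  rw [← Finset.mul_sum, Finset.sum_comm]
  have h2 : ∀ u : (ZMod N)ˣ, ∑ b : ZMod N, (ZMod.stdAddChar (b * (x - (u : ZMod N))) : ℂ)
      = if x = (u : ZMod N) then (N : ℂ) else 0 := by
    intro u
    rw [AddChar.sum_mulShift _ (ZMod.isPrimitive_stdAddChar N), ZMod.card]
    simp only [sub_eq_zero]
    split_ifs <;> simp
  simp_rw [h2]
  by_cases hx : IsUnit x
  · obtain ⟨v, rfl⟩ := hx
    have : ∀ u : (ZMod N)ˣ, (if (v : ZMod N) = (u : ZMod N) then (N : ℂ) else 0)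
        = if v = u then (N : ℂ) else 0 := by
      intro u
      simp only [Units.val_inj]
    simp_rw [this]
    rw [Finset.sum_ite_eq]
    simp [hN]
  · rw [if_neg hx]
    have : ∀ u : (ZMod N)ˣ, (if x = (u : ZMod N) then (N : ℂ) else 0) = 0 := by
      intro u
      rw [if_neg]
      rintro rfl
      exact hx u.isUnit
    simp_rw [this]
    simp

theorem Dep_qCoeff_sum {M : ℕ} {k : ℤ} {ι : Type*} (s : Finset ι) (F : ι → CuspForm (Gamma1 M) k)
    (n : ℕ) :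
    ModularFormClass.qCoeff (⇑(∑ i ∈ s, F i)) n = ∑ i ∈ s, ModularFormClass.qCoeff (F i) n := by
  classical
  induction s using Finset.induction_on with
  | empty =>
    have := qCoeff_smul (0 : ℂ) (0 : CuspForm (Gamma1 M) k) n
    rw [zero_smul, zero_mul] at this
    simpa using this
  | insert i s hi ih =>
    rw [Finset.sum_insert hi, Finset.sum_insert hi, qCoeff_add, ih]

/-- **Depletion.** -/
theorem exists_depletion (N : ℕ) [NeZero N] (k : ℤ) (f : CuspForm (Gamma1 N) k) :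
    ∃ f' : CuspForm (Gamma1 (N ^ 3)) k, ∀ n : ℕ,
      ModularFormClass.qCoeff f' n = if n.Coprime N then ModularFormClass.qCoeff f n else 0 := by
  refine ⟨∑ b : ZMod N, ((N : ℂ)⁻¹ * ∑ u : (ZMod N)ˣ, ZMod.stdAddChar (-((u : ZMod N) * b)))
    • shift N k b.val f, fun n => ?_⟩
  rw [Dep_qCoeff_sum]
  have h1 : ∀ b : ZMod N, ModularFormClass.qCoeff
      (⇑(((N : ℂ)⁻¹ * ∑ u : (ZMod N)ˣ, ZMod.stdAddChar (-((u : ZMod N) * b)))
        • shift N k b.val f)) n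
      = (((N : ℂ)⁻¹ * ∑ u : (ZMod N)ˣ, ZMod.stdAddChar (-((u : ZMod N) * b)))
        * ZMod.stdAddChar ((n : ZMod N) * b)) * ModularFormClass.qCoeff f n := by
    intro b
    rw [qCoeff_smul, qCoeff_shift, ZMod.natCast_zmod_val]
    ring
  simp_rw [h1]
  rw [← Finset.sum_mul, sum_coeff_stdAddChar]
  by_cases hn : n.Coprime N
  · rw [if_pos hn, if_pos ((ZMod.isUnit_iff_coprime n N).mpr hn), one_mul]
  · rw [if_neg hn, if_neg (fun h => hn ((ZMod.isUnit_iff_coprime n N).mp h)), zero_mul]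

end Fermat.Agent.S48.W0
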